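/-
S32, assembly: a Hecke-Galois datum of level `N` is flat at `p` once the `p`-power torsion of
`J₀(N)` has finite flat models over `ℤ_(p)`.
-/
import Fermat.Agent.Datum.Consequences
import Fermat.Agent.Flat.HopfToolkit

set_option autoImplicit false

noncomputable section

namespace Fermat.Agent.FlatDatum

open CuspForm ModularCurve
open Fermat.Agent.GaloisAdic

local notation "ℚbar" => AlgebraicClosure ℚ
local notation "Γℚ" => AlgebraicClosure ℚ ≃ₐ[ℚ] AlgebraicClosure ℚ

variable (N : ℕ) [NeZero N] (p : ℕ)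

/-- The Galois action on the `p ^ k`-torsion of `J₀(N)`. -/
def torsAct (k : ℕ) (σ : Γℚ) (x : Submodule.torsionBy ℤ (JZero N) ((p : ℤ) ^ k)) :
    Submodule.torsionBy ℤ (JZero N) ((p : ℤ) ^ k) :=
  ⟨σ • (x : JZero N), by
    rw [Submodule.mem_torsionBy_iff]
    refine ((DistribSMul.toAddMonoidHom (JZero N) σ).map_zsmul ((p : ℤ) ^ k) (x : JZero N)).symm.trans
      ?_
    rw [(Submodule.mem_torsionBy_iff _ _).mp x.2, map_zero]⟩

/-- The `p`-power torsion of `J₀(N)` has finite flat models over `ℤ_(p)` (the content of S19). -/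
def HasTorsionModels : Prop :=
  ∀ k : ℕ, FlatModel.HasFlatModel p (Submodule.torsionBy ℤ (JZero N) ((p : ℤ) ^ k))
    (torsAct N p k)

variable {N p}

/-- `HasTorsionModels` from models in the shape of S19. -/
theorem hasTorsionModels_of
    (h : ∀ k : ℕ, ∃ (H : Type) (_ : CommRing H) (_ : HopfAlgebra (GaloisRep.ratLocalizedAt p) H),
      Module.Finite (GaloisRep.ratLocalizedAt p) H ∧ Module.Flat (GaloisRep.ratLocalizedAt p) H ∧
      Coalgebra.IsCocomm (GaloisRep.ratLocalizedAt p) H ∧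
      ∃ e : WithConv (H →ₐ[GaloisRep.ratLocalizedAt p] ℚbar) ≃
          ↥(Submodule.torsionBy ℤ (JZero N) ((p : ℤ) ^ k)),
        (∀ f g, e (f * g) = e f + e g) ∧
        ∀ (σ : Γℚ) (f g : WithConv (H →ₐ[GaloisRep.ratLocalizedAt p] ℚbar)),
          (∀ h : H, g h = σ (f h)) → ((e g : JZero N)) = σ • (e f : JZero N)) :
    HasTorsionModels N p := fun k => by
  obtain ⟨H, hH₁, hH₂, hfin, hflat, hcc, e, he, heσ⟩ := h k
  exact ⟨H, hH₁, hH₂, hfin, hflat, hcc, e, he, fun σ f g hfg => Subtype.ext (heσ σ f g hfg)⟩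

variable [Fact p.Prime]

/-- The torsion of `J₀(N)` at `p`-power level is finite, given a frame. -/
theorem finite_torsionBy (F : TorsionFrame N p) (k : ℕ) :
    Finite (Submodule.torsionBy ℤ (JZero N) ((p : ℤ) ^ k)) := by
  have h : ∀ x : Submodule.torsionBy ℤ (JZero N) ((p : ℤ) ^ k), ∃ w, F.e k w = x := fun x =>
    ((F.isTorsionIso k).mem_range_iff _).2 <| by
      rw [← natCast_zsmul, Nat.cast_pow]
      exact (Submodule.mem_torsionBy_iff _ _).mp x.2
  choose w hw using h
  have : NeZero (p ^ k) := ⟨pow_ne_zero _ (Fact.out (p := p.Prime)).ne_zero⟩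
  exact Finite.of_injective w fun x y hxy => Subtype.ext (by rw [← hw x, ← hw y, hxy])

variable {S : Finset ℕ}
  {𝒪 : Type} [CommRing 𝒪] [IsDomain 𝒪] [IsDiscreteValuationRing 𝒪]
  [IsAdicComplete (IsLocalRing.maximalIdeal 𝒪) 𝒪]
  {θ : heckeAlgebra N 2 (↑S : Set ℕ) →+* IsLocalRing.ResidueField 𝒪}
  {T : Type} [CommRing T] [IsLocalRing T] [IsNoetherianRing T]
  [IsAdicComplete (IsLocalRing.maximalIdeal T) T] [Algebra 𝒪 T] [IsLocalHom (algebraMap 𝒪 T)]
  [Module.Finite 𝒪 T] [Module.Free 𝒪 T]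

omit [Fact p.Prime] in
/-- The coefficient ring of a datum over a finite residue field has finite residue field. -/
theorem finite_residueField [Finite (IsLocalRing.ResidueField 𝒪)]
    (H : HeckeGaloisRepDatum N (↑S : Set ℕ) 𝒪 θ T) : Finite (IsLocalRing.ResidueField T) := by
  refine Finite.of_surjective (IsLocalRing.ResidueField.map (algebraMap 𝒪 T)) fun y => ?_
  obtain ⟨x, hx⟩ := H.residue_surjective y
  exact ⟨IsLocalRing.residue 𝒪 x, hx⟩

/-- The datum is flat at `p`. -/
theorem isFlatAt_of_models [Finite (IsLocalRing.ResidueField 𝒪)]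
    (hF : TorsionFacts N p) (F : TorsionFrame N p) (hJ : HasTorsionModels N p)
    (hpS : p ∈ S) (hp𝒪 : (p : 𝒪) ∈ IsLocalRing.maximalIdeal 𝒪)
    (hNS : ∀ q : ℕ, q.Prime → q ∣ N → q ∈ S)
    (H : HeckeGaloisRepDatum N (↑S : Set ℕ) 𝒪 θ T) : H.ρ.IsFlatAt p := by
  refine ⟨finite_residueField H, fun I hI => ?_⟩
  obtain ⟨K, ι, hι, U, π, hπ, hUK, hπσ⟩ :=
    Datum.exists_torsion_subquotient hF F hpS hp𝒪 hNS H I
  have := finite_torsionBy F K
  -- the subgroup, inside the power of the torsion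
  let f : U →+ (ι → Submodule.torsionBy ℤ (JZero N) ((p : ℤ) ^ K)) :=
    { toFun := fun u i => ⟨(u : ι → JZero N) i, by
        rw [Submodule.mem_torsionBy_iff, ← Nat.cast_pow, natCast_zsmul]
        exact hUK u i⟩
      map_zero' := rfl
      map_add' := fun u v => rfl }
  have hf : Function.Injective f := fun u v h =>
    Subtype.ext (funext fun i => congrArg Subtype.val (congrFun h i))
  have : Finite U := Finite.of_injective f hf
  choose actU hactU hπU using hπσ
  have hU : FlatModel.HasFlatModel p U actU := by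
    refine ((hJ K).pi_const ι).of_injective f hf fun σ u => funext fun i => Subtype.ext ?_
    exact hactU σ u i
  exact hU.of_surjective (actN := fun σ x => H.ρ.levelAction I σ x) π hπ hπU

end Fermat.Agent.FlatDatum
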